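/-
S45, block WIRE (helper108).  Definitions: THE interface between the wiring of S45 and the geometric
part (blueprint report #1687, chief helper122).

* `BPrimeK0K` : statement (B') over the inertia field `K0 A` at level `N * q` with `q ^ 2 ∣ N`
  (so `q ^ 3` divides the level), at levels divisible by the auxiliary level.  The exponent `c` may
  depend on `q` and `N` only.  THIS is what the blocks K, TAB, PTS, MOD have to prove.
* `BPrimeK` : statement (B') over `ℚ̄` for `q ^ 2 ∣ N`, the shape consumed by `S36.OldDataStatement`.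
-/
import Fermat.Agent.BAD.Bridge.Defs
import Fermat.Agent.S36.Defs

set_option autoImplicit false

noncomputable section

namespace Fermat.Agent.S45.Wire

open ModularCurve AlgebraicCurve Fermat.Agent.S24 Fermat.Agent.Lib.InertiaField
open Fermat.Agent.S18.Descent Fermat.Agent.GAL Fermat.Agent.BAD.Bridge

/-- **(B') over the inertia field for `q ^ 2 ∣ N`** (level `N * q`, divisible by `q ^ 3`). -/
def BPrimeK0K : Prop :=
  ∀ (q : ℕ) [NeZero q] (N : ℕ) [NeZero N], q.Prime → q ^ 2 ∣ N → auxLevel q ∣ N →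
    ∃ c : ℕ, c ≠ 0 ∧ ∀ A : ValuationSubring Qb, A.LiesOverPrime q → ∀ n : ℕ, ¬ q ∣ n →
      ∀ u : FK (K0 A) (N * q), u ≠ 0 → S36.BP.HorDiv (K0 A) n u →
        S36.BP.IsConstPow (K0 A) (EαK (K0 A) N q) n (NαK (K0 A) N q u) →
        S36.BP.IsConstPow (K0 A) (EβK (K0 A) N q) n (NβK (K0 A) N q u) →
        ∃ s : FK (K0 A) (N * q), s ≠ 0 ∧ IsAlgebraic (K0 A) (s ^ n * u ^ c)

/-- **(B') over `ℚ̄` for `q ^ 2 ∣ N`.** -/
def BPrimeK : Prop :=
  ∀ (q : ℕ) [NeZero q] (N : ℕ) [NeZero N], q.Prime → q ^ 2 ∣ N →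
    ∃ c₀ : ℕ, c₀ ≠ 0 ∧ ∀ A : ValuationSubring (AlgebraicClosure ℚ), A.LiesOverPrime q →
      ∀ n : ℕ, ¬ q ∣ n → ∀ u : E.kum (N * q) n,
        (∀ σ ∈ A.inertiaSubgroupIn ℚ, E.rho (N * q) n σ (E.cls u) = E.cls u) →
        (∃ v : FN N, E.normAlpha N q ((u : (FN (N * q))ˣ) : FN (N * q)) = v ^ n) →
        (∃ v : FN N, S36.normBeta N q ((u : (FN (N * q))ˣ) : FN (N * q)) = v ^ n) →
        c₀ • E.cls u = 0

end Fermat.Agent.S45.Wire

end
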