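/-
S45, block WIRE (helper108).  The bridge `ℚ̄ → K₀` for `q ^ 2 ∣ N`: port of
`BAD.Bridge.bprime'_of` (helper225); every lemma used there is generic in the level.

`bprimeK_of : BPrimeK0K → BPrimeK`.
-/
import Fermat.Agent.S45.Wire.Defs
import Fermat.Agent.BAD.Bridge.Top

set_option autoImplicit false

noncomputable section

namespace Fermat.Agent.S45.Wire

open ModularCurve AlgebraicCurve Fermat.Agent.S24 Fermat.Agent.Lib.InertiaField
open Fermat.Agent.S18.Descent Fermat.Agent.GAL Fermat.Agent.BAD.Bridge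

/-- **The bridge for `q ^ 2 ∣ N`.** -/
theorem bprimeK_of (hK0 : BPrimeK0K) : BPrimeK := by
  intro q _ N _ hq hq2
  have hAux : AuxNorm := auxNorm_holds
  have hqN : q ∣ N := (dvd_pow_self q two_ne_zero).trans hq2
  have ha0 : auxLevel q ≠ 0 := auxLevel_ne_zero q
  have : NeZero (auxLevel q) := ⟨ha0⟩
  have : NeZero (N * auxLevel q) := ⟨mul_ne_zero (NeZero.ne N) ha0⟩
  have hcop : Nat.Coprime (auxLevel q) q := coprime_auxLevel hq
  have hdvd : N * q ∣ N * auxLevel q * q :=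
    Nat.mul_dvd_mul_right (Nat.dvd_mul_right N (auxLevel q)) q
  let _ := (levelIncl hdvd).toRingHom.toAlgebra
  obtain ⟨c, hc0, hK0'⟩ := hK0 q (N * auxLevel q) hq (Dvd.dvd.mul_right hq2 _)
    (Nat.dvd_mul_left _ _)
  refine ⟨c * Module.finrank (FN (N * q)) (FN (N * auxLevel q * q)),
    mul_ne_zero hc0 (finrank_levelIncl_ne_zero hdvd), ?_⟩
  rintro A hA n hn u hfix ⟨vα, hvα⟩ ⟨vβ, hvβ⟩
  replace hvα : normAlphaK Kbar N q ((u : (FN (N * q))ˣ) : FN (N * q)) = vα ^ n := hvα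
  replace hvβ : normBetaK Kbar N q ((u : (FN (N * q))ˣ) : FN (N * q)) = vβ ^ n := hvβ
  have hn0 : n ≠ 0 := by
    rintro rfl
    exact hn (dvd_zero q)
  set U : FN (N * q) := ((u : (FN (N * q))ˣ) : FN (N * q)) with hU
  have hU0 : U ≠ 0 := Units.ne_zero _
  set u1 : FN (N * auxLevel q * q) := levelIncl hdvd U with hu1def
  have hu1_0 : u1 ≠ 0 := (map_ne_zero _).mpr hU0
  have hkum1 : E.IsKum (N * auxLevel q * q) n u1 := isKum_levelIncl hdvd n U u.2
  have hfix1 : ∀ σ ∈ A.inertiaSubgroupIn ℚ,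
      ∃ h : FN (N * auxLevel q * q), E.galF _ σ u1 = u1 * h ^ n := by
    intro σ hσ
    obtain ⟨g, hg⟩ := exists_galF_eq_mul_pow σ u (hfix σ hσ)
    exact ⟨levelIncl hdvd g, by rw [hu1def, galF_levelIncl, hg, map_mul, map_pow]⟩
  obtain ⟨u0, h, hu0, hh0, hu1⟩ :=
    exists_fixed_rep A (N * auxLevel q * q) n hn0 u1 hu1_0 hkum1 hfix1
  have hbc : bc A _ u0 = u1 / h ^ n := by
    rw [hu1]; field_simp
  have hkum0 : E.IsKum (N * auxLevel q * q) n (bc A _ u0) := by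
    rw [hbc]; exact hkum1.div (E.isKum_pow_self _ _ h)
  have hhor := horDiv_of_isKum A (N * auxLevel q * q) n u0 hu0 hkum0
  obtain ⟨hAα, hAβ⟩ := hAux q N (auxLevel q) hq hqN hcop U
  -- the two norms
  have hNα : ∃ v : FN (N * auxLevel q),
      bc A (N * auxLevel q) (normAlphaK (K0 A) (N * auxLevel q) q u0) = v ^ n := by
    rw [bc_normAlphaK, hbc, monoidHom_div _ _ (pow_ne_zero n hh0), map_pow, hu1def, hAα, hvα,
      map_pow, ← div_pow]
    exact ⟨_, rfl⟩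
  have hNβ : ∃ v : FN (N * auxLevel q),
      bc A (N * auxLevel q) (normBetaK (K0 A) (N * auxLevel q) q u0) = v ^ n := by
    rw [bc_normBetaK, hbc, monoidHom_div _ _ (pow_ne_zero n hh0), map_pow, hu1def, hAβ, hvβ,
      map_pow, ← div_pow]
    exact ⟨_, rfl⟩
  obtain ⟨wα, hwα⟩ := hNα
  obtain ⟨wβ, hwβ⟩ := hNβ
  obtain ⟨cα, gα, hcα, hgα, hα⟩ := exists_const_mul_pow_of_bc_eq_pow A (N * auxLevel q) n hn0 _
    (monoidHom_ne_zero _ hu0) wα hwα
  obtain ⟨cβ, gβ, hcβ, hgβ, hβ⟩ := exists_const_mul_pow_of_bc_eq_pow A (N * auxLevel q) n hn0 _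
    (monoidHom_ne_zero _ hu0) wβ hwβ
  have hCα : S36.BP.IsConstPow (K0 A) (EαK (K0 A) (N * auxLevel q) q) n
      (NαK (K0 A) (N * auxLevel q) q u0) := by
    refine ⟨cα, heckeAlphaBar (K0 A) (N * auxLevel q) q gα, hcα, (map_ne_zero _).mpr hgα,
      ⟨gα, rfl⟩, ?_⟩
    show heckeAlphaBar (K0 A) (N * auxLevel q) q (normAlphaK (K0 A) (N * auxLevel q) q u0) = _
    rw [hα, map_mul, map_pow, AlgHom.commutes]
  have hCβ : S36.BP.IsConstPow (K0 A) (EβK (K0 A) (N * auxLevel q) q) n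
      (NβK (K0 A) (N * auxLevel q) q u0) := by
    refine ⟨cβ, heckeBetaBar (K0 A) (N * auxLevel q) q gβ, hcβ, (map_ne_zero _).mpr hgβ,
      ⟨gβ, rfl⟩, ?_⟩
    show heckeBetaBar (K0 A) (N * auxLevel q) q (normBetaK (K0 A) (N * auxLevel q) q u0) = _
    rw [hβ, map_mul, map_pow, AlgHom.commutes]
  obtain ⟨s, hs0, hs⟩ := hK0' A hA n hn u0 hu0 hhor hCα hCβ
  obtain ⟨e, he⟩ := exists_const_of_isAlgebraic (K' := Kbar) (algebraMap (K0 A) Qb)
    (bc A (N * auxLevel q * q)) (fun a => bc_algebraMap A _ a) hs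
  obtain ⟨d, hd⟩ := IsAlgClosed.exists_pow_nat_eq e (Nat.pos_of_ne_zero hn0)
  have hs' : bc A (N * auxLevel q * q) s ≠ 0 := (map_ne_zero _).mpr hs0
  have hpow : algebraMap (FN (N * q)) (FN (N * auxLevel q * q)) (U ^ c) =
      (algebraMap Kbar (FN (N * auxLevel q * q)) d / bc A _ s * h ^ c) ^ n := by
    show levelIncl hdvd (U ^ c) = _
    have hc' : algebraMap Kbar (FN (N * auxLevel q * q)) d ^ n =
        bc A _ s ^ n * bc A _ u0 ^ c := by
      rw [← map_pow, hd, ← he, map_mul, map_pow, map_pow]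
    rw [map_pow, ← hu1def, hu1, mul_pow, mul_pow, div_pow, hc', ← pow_mul, ← pow_mul, mul_comm n]
    field_simp
  obtain ⟨t, ht⟩ := exists_pow_finrank_eq_pow (U ^ c) _ hpow
  rw [← E.cls_pow, E.cls_eq_zero_iff]
  apply E.mem_pows_of_eq_pow (w := t)
  rw [← ht, ← pow_mul]
  rfl

end Fermat.Agent.S45.Wire

end
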