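/-
S45, block WIRE (helper108).  Port of the top of S36 (`S36.result_of_layers`, `S36.result_of_inputs`,
architect helper36, proof helper207) with `q ^ 2 ∣ M` instead of `M.factorization q = 2`:
Carayol's theorem at EVERY prime `q ≠ lam` with `q ^ 2 ∣ M`, from `S36.BPrime` (landed) and
`BPrimeK` (the case `q ^ 3 ∣ M`).
-/
import Fermat.Agent.S45.Wire.Defs
import Fermat.Agent.S36.Top.Final

set_option autoImplicit false

namespace Fermat.Agent.S45.Wire

open Fermat.Agent.S36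
open Fermat.Agent.GAL Fermat.Agent.S30 Fermat.Agent.Lib.HeckeHom CuspForm IsLocalRing Polynomial
open Fermat.Agent.S16.Lift (homPE)

theorem result_of_layersK (wc : WeakCheb)
    {M : ℕ} [NeZero M] {g : CuspForm (CongruenceSubgroup.Gamma0 M) 2} (hg : g.IsNewform)
    (lam : ℕ) [Fact lam.Prime]
    (S : Finset ℕ)
    (O' : Type) [CommRing O'] [IsDomain O'] [IsDiscreteValuationRing O']
    [IsAdicComplete (IsLocalRing.maximalIdeal O') O'] [Finite (IsLocalRing.ResidueField O')]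
    [CharZero O'] (hlamO' : (lam : O') ∈ IsLocalRing.maximalIdeal O')
    (hlam2 : lam ≠ 2)
    (chig : CuspForm.heckeAlgebra M 2 (↑S : Set ℕ) →+* ℂ)
    (hchig : ∀ (ℓ : ℕ) (hℓ : ℓ.Prime) (hℓM : ¬ ℓ ∣ M) (hℓS : ℓ ∉ (↑S : Set ℕ)),
      chig (CuspForm.heckeAlgebra.T hℓ hℓM hℓS) = ModularFormClass.qCoeff g ℓ)
    (iota : chig.range →+* O')
    (hlamS : lam ∈ S) (hMS : ∀ q : ℕ, q.Prime → q ∣ M → q ∈ S)
    (D : ∀ k : ℕ, LayerData M (lam ^ k))
    (old : ∀ q : ℕ, q.Prime → q ≠ lam → q ^ 2 ∣ M →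
      ∃ (M' c₀ : ℕ) (_ : NeZero M'), M = M' * q ∧ q ∣ M' ∧ c₀ ≠ 0 ∧
        ∀ k : ℕ, Nonempty (OldData M' q (lam ^ k) c₀ (D k))) :
    ∃ (O'' : Type) (_ : CommRing O'') (_ : IsDomain O'') (_ : IsDiscreteValuationRing O'')
      (_ : IsAdicComplete (IsLocalRing.maximalIdeal O'') O'') (_ : Finite (IsLocalRing.ResidueField O''))
      (_ : CharZero O'') (_ : Algebra O' O'') (_ : Module.Finite O' O'') (_ : IsLocalHom (algebraMap O' O'')),
      Function.Injective (algebraMap O' O'') ∧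
      ∃ ρ : GaloisRepAdic O'',
        (∀ (ℓ : ℕ) (hℓ : ℓ.Prime) (hℓM : ¬ ℓ ∣ M) (hℓS : ℓ ∉ (↑S : Set ℕ)),
          ∀ A : ValuationSubring (AlgebraicClosure ℚ), A.LiesOverPrime ℓ →
            ∀ σ : AlgebraicClosure ℚ ≃ₐ[ℚ] AlgebraicClosure ℚ, A.IsFrobeniusAt σ ℓ →
              LinearMap.charpoly (ρ.ρ σ) =
                X ^ 2 - C (algebraMap O' O'' ((iota.comp chig.rangeRestrict) (CuspForm.heckeAlgebra.T hℓ hℓM hℓS))) * X
                  + C ((ℓ : O''))) ∧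
        (∀ q : ℕ, q.Prime → q ≠ lam → q ^ 2 ∣ M → ¬ ρ.IsUnipotentOnInertiaAt q) := by
  have hlam : lam.Prime := Fact.out
  set χ : heckeAlgebra M 2 (↑S : Set ℕ) →+* O' := iota.comp chig.rangeRestrict with hχdef
  let U : UTower M lam S := utowerOfLayers hlam S hMS hlamS D
  let a : ℕ → O' := fun ℓ => χ (heckeFun M S ℓ)
  let tower : ∀ k, Level M lam S a k := fun k => U.level hlam.ne_zero χ k
  obtain ⟨ρ, t, ε, hcp, hfrob, hrep⟩ := exists_rep_spec wc hlamS hlamO' tower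
  refine ⟨O', inferInstance, inferInstance, inferInstance, inferInstance, inferInstance,
    inferInstance, Algebra.id O', Module.Finite.self O', ⟨fun a ha => ha⟩, Function.injective_id,
    ρ, ?_, ?_⟩
  · intro ℓ hℓ hℓM hℓS A hA σ hσ
    have hS' : ℓ ∉ S := fun h => hℓS (Finset.mem_coe.mpr h)
    obtain ⟨h1, h2⟩ := hfrob ℓ hℓ hS' σ ⟨A, hA, hσ⟩
    rw [hcp σ, h1, h2]
    show X ^ 2 - C (χ (heckeFun M S ℓ)) * X + C (ℓ : O') = _
    rw [heckeFun_eq hℓ hℓM hℓS]
    rfl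
  · intro q hq hql hfac huni
    obtain ⟨M', c₀, hM'0, hM, hqM', hc₀, hold⟩ := old q hq hql hfac
    obtain ⟨A, hA⟩ := Lib.Frobenius.exists_liesOverPrime q hq
    obtain ⟨P, hP0, hP1⟩ := exists_poly_of_isNewform hg M' q hM hq hqM'
    have hsub : (↑M.primeFactors : Set ℕ) ⊆ (↑S : Set ℕ) := by
      intro r hr
      have hr' := Nat.mem_primeFactors.mp (Finset.mem_coe.mp hr)
      exact Finset.mem_coe.mpr (hMS r hr'.1 hr'.2.1)
    have hpf : ∀ r : ℕ, r.Prime → r ∣ M → r ∈ M.primeFactors := fun r hr hrM =>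
      Nat.mem_primeFactors.mpr ⟨hr, hrM, NeZero.ne M⟩
    have ht2 : ∀ σ ∈ A.inertiaSubgroupIn ℚ, t σ = 2 := by
      intro σ hσ
      have h1 := huni A hA σ hσ
      rw [hcp σ] at h1
      exact Result.eq_two_of_charpoly _ _ h1
    have haeval : ∀ r : HA, MvPolynomial.aeval a r = χ (polyHom M (↑S : Set ℕ) r) := by
      intro r
      rw [map_polyHom, ← Result.heckeFun_eq_tOf]
    have hprime : (RingHom.ker
        (Fermat.Agent.S29.Eigen.eigenChar hg.1 (↑M.primeFactors : Set ℕ))).IsPrime :=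
      RingHom.ker_isPrime _
    refine Top.false_of_unipotent (𝒪 := O') lam hlam hlam2 hlamO'
      (Λ := Lam M) (𝕋 := heckeAlgebra M 2 (↑M.primeFactors : Set ℕ))
      (latHom M (↑M.primeFactors : Set ℕ)) (latHom_injective M (↑M.primeFactors : Set ℕ))
      (RingHom.ker (Fermat.Agent.S29.Eigen.eigenChar hg.1 (↑M.primeFactors : Set ℕ)))
      ?_ (R := HA) (jHom M (↑M.primeFactors : Set ℕ) S) (MvPolynomial.aeval a).toRingHom ?_
      (polyHom M (↑M.primeFactors : Set ℕ) P) ?_ c₀ hc₀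
      (G := ↥(A.inertiaSubgroupIn ℚ))
      (fun k => homPE M (ZMod (lam ^ k)))
      (fun k => (redHom M (lam ^ k)).toIntLinearMap)
      (fun k => redHom_surjective M (lam ^ k))
      (fun k x hx => (redHom_eq_zero_iff M (lam ^ k) x).1 hx)
      (fun k w => nsmul_homPE_eq_zero M (lam ^ k) w)
      (fun k => actMod M (↑M.primeFactors : Set ℕ) (lam ^ k))
      (fun k t x => actMod_redHom M (↑M.primeFactors : Set ℕ) (lam ^ k) t x)
      (fun k => (Result.rInt (D k)).comp (A.inertiaSubgroupIn ℚ).subtype)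
      (fun k σ t w => LayerData.r_actMod (D k) M.primeFactors hpf σ t w) ?_ ?_
    · intro n hn
      rw [RingHom.mem_ker, map_intCast] at hn
      exact_mod_cast hn
    · intro r hr
      rw [RingHom.mem_ker, eigenChar_jHom hg.1 _ S hsub chig hchig] at hr
      show MvPolynomial.aeval a r = 0
      rw [haeval r, hχdef, RingHom.comp_apply]
      have : chig.rangeRestrict (polyHom M (↑S : Set ℕ) r) = 0 := Subtype.ext hr
      rw [this, map_zero]
    · rw [RingHom.mem_ker]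
      exact hP1
    · intro k w hw
      obtain ⟨O⟩ := hold k
      exact O.smul_actMod_eq_zero hM hqM' P hP0 A hA w (fun σ hσ => hw ⟨σ, hσ⟩)
    · intro k σ
      obtain ⟨Q, hQ⟩ := exists_represents wc hlamS (tower k) (σ : GQ)
      refine ⟨Q, ?_, ?_⟩
      · intro w
        have h1 := hQ 1 (isCyc_inertia hq hql ⟨A, hA, σ.2⟩) w
        rw [one_smul] at h1
        rw [actMod_jHom M _ S hsub]
        exact h1
      · have h1 := hrep k σ Q hQ
        rw [ht2 σ σ.2] at h1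
        have h2 : (MvPolynomial.aeval a).toRingHom Q - 2 = -(2 - MvPolynomial.aeval a Q) := by
          show MvPolynomial.aeval a Q - 2 = _
          ring
        rw [h2]
        exact neg_mem h1


theorem result_of_inputsK (hKL : KLStatement) (hH : HeckeOpStatement)
    (hMu : MultStatement) (hB : BPrime) (hBK : BPrimeK) (hOld : OldDataStatement)
    {M : ℕ} [NeZero M] {g : CuspForm (CongruenceSubgroup.Gamma0 M) 2} (hg : g.IsNewform)
    (lam : ℕ) [Fact lam.Prime]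
    (S : Finset ℕ)
    (O' : Type) [CommRing O'] [IsDomain O'] [IsDiscreteValuationRing O']
    [IsAdicComplete (IsLocalRing.maximalIdeal O') O'] [Finite (IsLocalRing.ResidueField O')]
    [CharZero O'] (hlamO' : (lam : O') ∈ IsLocalRing.maximalIdeal O')
    (hlam2 : lam ≠ 2)
    (chig : CuspForm.heckeAlgebra M 2 (↑S : Set ℕ) →+* ℂ)
    (hchig : ∀ (ℓ : ℕ) (hℓ : ℓ.Prime) (hℓM : ¬ ℓ ∣ M) (hℓS : ℓ ∉ (↑S : Set ℕ)),
      chig (CuspForm.heckeAlgebra.T hℓ hℓM hℓS) = ModularFormClass.qCoeff g ℓ)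
    (iota : chig.range →+* O')
    (hlamS : lam ∈ S) (hMS : ∀ q : ℕ, q.Prime → q ∣ M → q ∈ S) :
    ∃ (O'' : Type) (_ : CommRing O'') (_ : IsDomain O'') (_ : IsDiscreteValuationRing O'')
      (_ : IsAdicComplete (IsLocalRing.maximalIdeal O'') O'') (_ : Finite (IsLocalRing.ResidueField O''))
      (_ : CharZero O'') (_ : Algebra O' O'') (_ : Module.Finite O' O'') (_ : IsLocalHom (algebraMap O' O'')),
      Function.Injective (algebraMap O' O'') ∧
      ∃ ρ : GaloisRepAdic O'',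
        (∀ (ℓ : ℕ) (hℓ : ℓ.Prime) (hℓM : ¬ ℓ ∣ M) (hℓS : ℓ ∉ (↑S : Set ℕ)),
          ∀ A : ValuationSubring (AlgebraicClosure ℚ), A.LiesOverPrime ℓ →
            ∀ σ : AlgebraicClosure ℚ ≃ₐ[ℚ] AlgebraicClosure ℚ, A.IsFrobeniusAt σ ℓ →
              LinearMap.charpoly (ρ.ρ σ) =
                X ^ 2 - C (algebraMap O' O'' ((iota.comp chig.rangeRestrict) (CuspForm.heckeAlgebra.T hℓ hℓM hℓS))) * X
                  + C ((ℓ : O''))) ∧
        (∀ q : ℕ, q.Prime → q ≠ lam → q ^ 2 ∣ M → ¬ ρ.IsUnipotentOnInertiaAt q) := by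
  have hlam : lam.Prime := Fact.out
  refine result_of_layersK Fermat.Agent.GAL.Tower.weakCheb hg lam S O' hlamO' hlam2 chig hchig iota
    hlamS hMS (fun k => concreteLayer hKL hH hMu M (lam ^ k) (pow_pos hlam.pos k)) ?_
  intro q hq hql hq2
  have : NeZero q := ⟨hq.ne_zero⟩
  have hM0 : M ≠ 0 := NeZero.ne M
  obtain ⟨N, rfl⟩ : ∃ N, M = N * q := by
    obtain ⟨c, hc⟩ := hq2
    exact ⟨q * c, by rw [hc]; ring⟩
  have hN0 : N ≠ 0 := by
    rintro rfl
    exact hM0 (by simp)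
  have : NeZero N := ⟨hN0⟩
  have hqN : q ∣ N := by
    have h : q * q ∣ N * q := by rwa [← sq]
    exact Nat.dvd_of_mul_dvd_mul_right hq.pos h
  have hqn : ∀ k : ℕ, ¬ q ∣ lam ^ k := fun k h =>
    hql ((Nat.prime_dvd_prime_iff_eq hq hlam).mp (hq.dvd_of_dvd_pow h))
  by_cases hqN2 : q ^ 2 ∣ N
  · obtain ⟨c₀, hc₀, hB'⟩ := hBK q N hq hqN2
    exact ⟨N, c₀, inferInstance, rfl, hqN, hc₀, fun k =>
      hOld hKL hH hMu q N hq hqN c₀ hB' (lam ^ k) (pow_pos hlam.pos k) (hqn k)⟩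
  · obtain ⟨c₀, hc₀, hB'⟩ := hB q N hq hqN hqN2
    exact ⟨N, c₀, inferInstance, rfl, hqN, hc₀, fun k =>
      hOld hKL hH hMu q N hq hqN c₀ hB' (lam ^ k) (pow_pos hlam.pos k) (hqn k)⟩

end Fermat.Agent.S45.Wire
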