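/-
S45, block WIRE (helper108).  `CarayolK` : Carayol's theorem at every prime `q ≠ lam` with
`q ^ 2 ∣ M` (no hypothesis on the residual representation), and its proof from `BPrimeK0K` and the
landed closure of S36.
-/
import Fermat.Agent.S45.Wire.Top
import Fermat.Agent.S45.Wire.Bridge
import Fermat.Agent.S36.Top.FromModel
import Fermat.Agent.S36.Inst.Main

set_option autoImplicit false

namespace Fermat.Agent.S45.Wire

open Fermat.Agent.S36
open Fermat.Agent.GAL CuspForm IsLocalRing Polynomial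

/-- Carayol's theorem at all primes `q ≠ lam` with `q ^ 2 ∣ M`. -/
def CarayolK : Prop :=
  ∀ {M : ℕ} [NeZero M] {g : CuspForm (CongruenceSubgroup.Gamma0 M) 2} (_hg : g.IsNewform)
    (lam : ℕ) [Fact lam.Prime]
    (S : Finset ℕ)
    (O' : Type) [CommRing O'] [IsDomain O'] [IsDiscreteValuationRing O']
    [IsAdicComplete (IsLocalRing.maximalIdeal O') O'] [Finite (IsLocalRing.ResidueField O')]
    [CharZero O'] (_hlamO' : (lam : O') ∈ IsLocalRing.maximalIdeal O')
    (_hlam2 : lam ≠ 2)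
    (chig : CuspForm.heckeAlgebra M 2 (↑S : Set ℕ) →+* ℂ)
    (_hchig : ∀ (ℓ : ℕ) (hℓ : ℓ.Prime) (hℓM : ¬ ℓ ∣ M) (hℓS : ℓ ∉ (↑S : Set ℕ)),
      chig (CuspForm.heckeAlgebra.T hℓ hℓM hℓS) = ModularFormClass.qCoeff g ℓ)
    (iota : chig.range →+* O')
    (_hlamS : lam ∈ S) (_hMS : ∀ q : ℕ, q.Prime → q ∣ M → q ∈ S),
    ∃ (O'' : Type) (_ : CommRing O'') (_ : IsDomain O'') (_ : IsDiscreteValuationRing O'')
      (_ : IsAdicComplete (IsLocalRing.maximalIdeal O'') O'')
      (_ : Finite (IsLocalRing.ResidueField O''))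
      (_ : CharZero O'') (_ : Algebra O' O'') (_ : Module.Finite O' O'')
      (_ : IsLocalHom (algebraMap O' O'')),
      Function.Injective (algebraMap O' O'') ∧
      ∃ ρ : GaloisRepAdic O'',
        (∀ (ℓ : ℕ) (hℓ : ℓ.Prime) (hℓM : ¬ ℓ ∣ M) (hℓS : ℓ ∉ (↑S : Set ℕ)),
          ∀ A : ValuationSubring (AlgebraicClosure ℚ), A.LiesOverPrime ℓ →
            ∀ σ : AlgebraicClosure ℚ ≃ₐ[ℚ] AlgebraicClosure ℚ, A.IsFrobeniusAt σ ℓ →
              LinearMap.charpoly (ρ.ρ σ) =
                X ^ 2 - C (algebraMap O' O'' ((iota.comp chig.rangeRestrict)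
                  (CuspForm.heckeAlgebra.T hℓ hℓM hℓS))) * X
                  + C ((ℓ : O''))) ∧
        (∀ q : ℕ, q.Prime → q ≠ lam → q ^ 2 ∣ M → ¬ ρ.IsUnipotentOnInertiaAt q)

/-- **Carayol's theorem at `q ^ 2 ∣ M` from (B') over the inertia field at `q ^ 3 ∣` level.** -/
theorem carayolK_of (hK0 : BPrimeK0K) : CarayolK :=
  fun {_} _ {_} hg lam _ S O' _ _ _ _ _ _ hlamO' hlam2 chig hchig iota hlamS hMS =>
    result_of_inputsK klStatement Mult.heckeOpStatement Mult.multStatement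
      (bprime_of_modelStatement Inst.modelStatement) (bprimeK_of hK0) oldDataStatement hg lam S O'
      hlamO' hlam2 chig hchig iota hlamS hMS

end Fermat.Agent.S45.Wire
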