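/-
S45, block WIRE (helper108).  The integral Frey curve `P.freyCurveInt` is a semistable integral model
of `P.freyCurve`; `256 Δ = (a b c) ^ (2 p)`; its conductor level is a conductor level of `P`.
-/
import Mathlib
import Fermat.Prelude.Def_FLTPrelim_FreyPackage
import Fermat.Prelude.Def_FLTPrelim_Modularity
import Fermat.Prelude.Def_FreyPackage_IsConductorLevel
import Fermat.Prelude.Def_WeierstrassCurve_ConductorLevel

set_option autoImplicit false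

namespace Fermat.Agent.S45.Wire

open WeierstrassCurve

/-- `4 ∣ b ^ p - 1 - a ^ p`. -/
theorem frey_four_dvd (P : FreyPackage) : (4 : ℤ) ∣ P.b ^ P.p - 1 - P.a ^ P.p := by
  have hb : (2 : ℤ) ∣ P.b := (ZMod.intCast_zmod_eq_zero_iff_dvd P.b 2).1 P.hb2
  have h5 := P.hp5
  have hb4 : (4 : ℤ) ∣ P.b ^ P.p := by
    have h1 : (2 : ℤ) ^ 2 ∣ P.b ^ 2 := pow_dvd_pow_of_dvd hb 2
    have h2 : P.b ^ 2 ∣ P.b ^ P.p := pow_dvd_pow _ (by omega)
    exact (by norm_num : (4 : ℤ) = 2 ^ 2) ▸ h1.trans h2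
  have ha : (4 : ℤ) ∣ 1 + P.a ^ P.p := by
    refine (ZMod.intCast_zmod_eq_zero_iff_dvd (1 + P.a ^ P.p) 4).1 ?_
    push_cast
    rw [P.ha4]
    obtain ⟨k, hk⟩ := P.hp_odd
    rw [hk, pow_succ, pow_mul]
    have : (3 : ZMod 4) ^ 2 = 1 := by decide
    rw [this, one_pow]
    decide
  have : P.b ^ P.p - 1 - P.a ^ P.p = P.b ^ P.p - (1 + P.a ^ P.p) := by ring
  rw [this]
  exact dvd_sub hb4 ha

/-- `16 ∣ a ^ p * b ^ p`. -/
theorem frey_sixteen_dvd (P : FreyPackage) : (16 : ℤ) ∣ -(P.a ^ P.p) * (P.b ^ P.p) := by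
  have hb : (2 : ℤ) ∣ P.b := (ZMod.intCast_zmod_eq_zero_iff_dvd P.b 2).1 P.hb2
  have h5 := P.hp5
  have h1 : (2 : ℤ) ^ 4 ∣ P.b ^ 4 := pow_dvd_pow_of_dvd hb 4
  have h2 : P.b ^ 4 ∣ P.b ^ P.p := pow_dvd_pow _ (by omega)
  exact Dvd.dvd.mul_left ((by norm_num : (16 : ℤ) = 2 ^ 4) ▸ h1.trans h2) _

theorem frey_a₂ (P : FreyPackage) : 4 * P.freyCurveInt.a₂ = P.b ^ P.p - 1 - P.a ^ P.p :=
  Int.mul_ediv_cancel' (frey_four_dvd P)

theorem frey_a₄ (P : FreyPackage) : 16 * P.freyCurveInt.a₄ = -(P.a ^ P.p) * (P.b ^ P.p) :=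
  Int.mul_ediv_cancel' (frey_sixteen_dvd P)

theorem frey_map (P : FreyPackage) : P.freyCurveInt.map (Int.castRingHom ℚ) = P.freyCurve := by
  have h2 := congrArg (Int.cast : ℤ → ℚ) (frey_a₂ P)
  have h4 := congrArg (Int.cast : ℤ → ℚ) (frey_a₄ P)
  push_cast at h2 h4
  ext
  · simp [FreyPackage.freyCurveInt, FreyPackage.freyCurve]
  · show ((P.freyCurveInt.a₂ : ℤ) : ℚ) = (P.b ^ P.p - 1 - P.a ^ P.p) / 4
    rw [← h2]; ring
  · simp [FreyPackage.freyCurveInt, FreyPackage.freyCurve]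
  · show ((P.freyCurveInt.a₄ : ℤ) : ℚ) = -(P.a ^ P.p) * (P.b ^ P.p) / 16
    rw [← h4]; ring
  · simp [FreyPackage.freyCurveInt, FreyPackage.freyCurve]

theorem frey_isIntegralModelOf (P : FreyPackage) :
    P.freyCurveInt.IsIntegralModelOf P.freyCurve :=
  ⟨1, by rw [one_smul, frey_map]⟩

theorem frey_Δ (P : FreyPackage) :
    256 * P.freyCurveInt.Δ = (P.a * P.b * P.c) ^ (2 * P.p) := by
  have h2 := frey_a₂ P
  have h4 := frey_a₄ P
  have hΔ : P.freyCurveInt.Δ =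
      P.freyCurveInt.a₄ ^ 2 * ((1 + 4 * P.freyCurveInt.a₂) ^ 2 - 64 * P.freyCurveInt.a₄) := by
    have e1 : P.freyCurveInt.a₁ = 1 := rfl
    have e3 : P.freyCurveInt.a₃ = 0 := rfl
    have e6 : P.freyCurveInt.a₆ = 0 := rfl
    simp only [WeierstrassCurve.Δ, WeierstrassCurve.b₂, WeierstrassCurve.b₄, WeierstrassCurve.b₆,
      WeierstrassCurve.b₈, e1, e3, e6]
    ring
  have hc : P.c ^ P.p = P.a ^ P.p + P.b ^ P.p := P.hFLT.symm
  have hpow : (P.a * P.b * P.c) ^ (2 * P.p) = (P.a ^ P.p * P.b ^ P.p * P.c ^ P.p) ^ 2 := by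
    rw [← mul_pow, ← mul_pow, ← pow_mul, mul_comm P.p 2]
  rw [hpow, hc, hΔ]
  have e : 256 * (P.freyCurveInt.a₄ ^ 2 *
      ((1 + 4 * P.freyCurveInt.a₂) ^ 2 - 64 * P.freyCurveInt.a₄)) =
      (16 * P.freyCurveInt.a₄) ^ 2 *
        ((1 + 4 * P.freyCurveInt.a₂) ^ 2 - 4 * (16 * P.freyCurveInt.a₄)) := by ring
  rw [e, h2, h4]
  ring

theorem frey_c₄ (P : FreyPackage) :
    P.freyCurveInt.c₄ = (P.a ^ P.p) ^ 2 + P.a ^ P.p * P.b ^ P.p + (P.b ^ P.p) ^ 2 := by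
  have h2 := frey_a₂ P
  have h4 := frey_a₄ P
  have hc : P.freyCurveInt.c₄ =
      (1 + 4 * P.freyCurveInt.a₂) ^ 2 - 3 * (16 * P.freyCurveInt.a₄) := by
    have e1 : P.freyCurveInt.a₁ = 1 := rfl
    have e3 : P.freyCurveInt.a₃ = 0 := rfl
    simp only [WeierstrassCurve.c₄, WeierstrassCurve.b₂, WeierstrassCurve.b₄, e1, e3]
    ring
  rw [hc, h2, h4]
  ring

theorem frey_Δ_ne_zero (P : FreyPackage) : P.freyCurveInt.Δ ≠ 0 := by
  intro h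
  have h1 := frey_Δ P
  rw [h, mul_zero] at h1
  exact pow_ne_zero _ P.habc0 h1.symm

theorem frey_dvd_abc (P : FreyPackage) {q : ℕ} (hq : q.Prime) (h : (q : ℤ) ∣ P.freyCurveInt.Δ) :
    (q : ℤ) ∣ P.a * P.b * P.c := by
  have hq' : Prime (q : ℤ) := Nat.prime_iff_prime_int.mp hq
  have h1 : (q : ℤ) ∣ (P.a * P.b * P.c) ^ (2 * P.p) := by
    rw [← frey_Δ P]
    exact Dvd.dvd.mul_left h _
  exact hq'.dvd_of_dvd_pow h1

theorem not_dvd_both {x y : ℤ} (h : gcd x y = 1) {q : ℤ} (hq : Prime q) (hx : q ∣ x) (hy : q ∣ y) :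
    False :=
  hq.not_isUnit (isUnit_of_dvd_one (h ▸ dvd_gcd hx hy))

theorem frey_semistable (P : FreyPackage) : P.freyCurveInt.IsSemistableModel := by
  intro q hq hΔ hc4
  have hq' : Prime (q : ℤ) := Nat.prime_iff_prime_int.mp hq
  rw [frey_c₄] at hc4
  have hp0 : P.p ≠ 0 := P.hp0
  have habc := frey_dvd_abc P hq hΔ
  rcases hq'.dvd_or_dvd habc with hab | hc
  · rcases hq'.dvd_or_dvd hab with ha | hb
    · -- q ∣ a, so q ∣ b ^ (2p)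
      have hA : (q : ℤ) ∣ P.a ^ P.p := dvd_pow ha hp0
      have h1 : (q : ℤ) ∣ (P.b ^ P.p) ^ 2 := by
        have : (P.b ^ P.p) ^ 2 = ((P.a ^ P.p) ^ 2 + P.a ^ P.p * P.b ^ P.p + (P.b ^ P.p) ^ 2)
            - P.a ^ P.p * (P.a ^ P.p + P.b ^ P.p) := by ring
        rw [this]
        exact dvd_sub hc4 (Dvd.dvd.mul_right hA _)
      exact not_dvd_both P.hgcdab hq' ha (hq'.dvd_of_dvd_pow (hq'.dvd_of_dvd_pow h1))
    · have hB : (q : ℤ) ∣ P.b ^ P.p := dvd_pow hb hp0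
      have h1 : (q : ℤ) ∣ (P.a ^ P.p) ^ 2 := by
        have : (P.a ^ P.p) ^ 2 = ((P.a ^ P.p) ^ 2 + P.a ^ P.p * P.b ^ P.p + (P.b ^ P.p) ^ 2)
            - P.b ^ P.p * (P.a ^ P.p + P.b ^ P.p) := by ring
        rw [this]
        exact dvd_sub hc4 (Dvd.dvd.mul_right hB _)
      exact not_dvd_both P.hgcdab hq' (hq'.dvd_of_dvd_pow (hq'.dvd_of_dvd_pow h1)) hb
  · have hC : (q : ℤ) ∣ P.a ^ P.p + P.b ^ P.p := by
      rw [P.hFLT]
      exact dvd_pow hc hp0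
    have h1 : (q : ℤ) ∣ P.a ^ P.p * P.b ^ P.p := by
      have : P.a ^ P.p * P.b ^ P.p = (P.a ^ P.p + P.b ^ P.p) * (P.a ^ P.p + P.b ^ P.p)
          - ((P.a ^ P.p) ^ 2 + P.a ^ P.p * P.b ^ P.p + (P.b ^ P.p) ^ 2) := by ring
      rw [this]
      exact dvd_sub (Dvd.dvd.mul_right hC _) hc4
    rcases hq'.dvd_or_dvd h1 with h | h
    · exact not_dvd_both P.hgcdac hq' (hq'.dvd_of_dvd_pow h) hc
    · exact not_dvd_both P.hgcdbc hq' (hq'.dvd_of_dvd_pow h) hc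

theorem frey_isConductorLevel (P : FreyPackage) :
    P.IsConductorLevel P.freyCurveInt.conductorLevel :=
  ⟨P.freyCurveInt.conductorLevel_pos, P.freyCurveInt.squarefree_conductorLevel,
    fun q hq hqN => frey_dvd_abc P hq
      ((P.freyCurveInt.prime_dvd_conductorLevel_iff (frey_Δ_ne_zero P) hq).mp hqN)⟩

end Fermat.Agent.S45.Wire
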