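/-
S45, block WIRE/LOW (helper108).  THE INTERFACE between the wiring and the modular instance of the
abstract model `S45.K.ModelK` (blocks MOD / IND / INST): `ModelStatementK`.
Same conventions as `S36/ModelStatement.lean`: everything over an ABSTRACT field `K`.
The level is `N * q` with `q ^ 2 ∣ N`, the two degeneracy maps are
`heckeAlphaBar K N q`, `heckeBetaBar K N q : FK K N → FK K (N * q)`.
-/
import Fermat.Agent.S45.K.Defs
import Fermat.Agent.S36.ModelStatement

set_option autoImplicit false

noncomputable section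

namespace Fermat.Agent.S45.Wire

open Fermat.Agent.Lib.InertiaField Fermat.Agent.S18 ModularCurve Fermat.Agent.S36

/-- The abstract model `ModelK` is realised by the function field `FK K (N * q)` of `X₀(N q)` over
`K`, with the two degeneracy maps from level `N`. -/
def ModelOverK (K : Type*) [Field K] [Algebra ℚ K] (A₀ : ValuationSubring K) (q N : ℕ)
    [NeZero q] [NeZero N] : Prop :=
  ∃ (x : FK K (N * q)) (κ : Type) (_ : Finite κ) (V : κ → ValuationSubring (FK K (N * q)))
    (ϖ : κ → FK K (N * q)) (E : ℕ) (N₀ : FK K (N * q) →* FK K (N * q)),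
    Fermat.Agent.S45.K.ModelK A₀ q x V ϖ E
      (heckeAlphaBar K N q).toRingHom.fieldRange
      (heckeBetaBar K N q).toRingHom.fieldRange
      (embNorm (heckeAlphaBar K N q).toRingHom)
      (embNorm (heckeBetaBar K N q).toRingHom) N₀

/-- **The modular instance at levels divisible by `q ^ 3`**: `K` a subfield of `ℚ̄` with a discrete
valuation ring `A₀` as in `BP.BaseHyp`, `q ^ 2 ∣ N`, and `N` divisible by the auxiliary level
(`4` for `q` odd, `9` for `q = 2`). -/
def ModelStatementK : Prop :=
  ∀ (K : Type) [Field K] [Algebra ℚ K] [Algebra K Qb] (A₀ : ValuationSubring K)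
    (q : ℕ) [NeZero q] (N : ℕ) [NeZero N], BP.BaseHyp A₀ q → q ^ 2 ∣ N →
    (if q = 2 then 9 ∣ N else 4 ∣ N) → ModelOverK K A₀ q N

/-- The specialisation used by the bridge. -/
theorem ModelStatementK.at_inertiaField (h : ModelStatementK) (A : ValuationSubring Qb)
    (q : ℕ) [NeZero q] (N : ℕ) [NeZero N] (hb : BP.BaseHyp (A0 A) q) (hq : q ^ 2 ∣ N)
    (haux : if q = 2 then 9 ∣ N else 4 ∣ N) : ModelOverK (K0 A) (A0 A) q N :=
  h (K0 A) (A0 A) q N hb hq haux

end Fermat.Agent.S45.Wire

end
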