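/-
S45, block WIRE/LOW (helper108).  `bprimeK0K_of_model : BpAbsK → ModelStatementK → BPrimeK0K`
(port of `BAD.Bridge.bprimeK0_of_model`).
-/
import Fermat.Agent.S45.Wire.Defs
import Fermat.Agent.S45.Wire.ModelStatementK
import Fermat.Agent.BAD.Bridge.FromModel

set_option autoImplicit false

noncomputable section

namespace Fermat.Agent.S45.Wire

open ModularCurve AlgebraicCurve Fermat.Agent.S24 Fermat.Agent.Lib.InertiaField
open Fermat.Agent.S18.Descent Fermat.Agent.GAL Fermat.Agent.BAD.Bridge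

theorem bprimeK0K_of_model (hbp : Fermat.Agent.S45.K.BpAbsK) (hM : ModelStatementK) :
    BPrimeK0K := by
  intro q _ N _ hq hq2 haux
  refine ⟨q, hq.ne_zero, ?_⟩
  intro A hA n hn u hu hhor hα hβ
  obtain ⟨x, κ, hκ, V, ϖ, E, N₀, hmod⟩ := hM.at_inertiaField A q N (baseHyp_A0 A q hq hA) hq2
    ((auxLevel_dvd_iff q N).mp haux)
  exact hbp _ _ _ _ _ κ _ _ _ _ _ _ _ _ hmod n hn u hu hhor hα hβ

end Fermat.Agent.S45.Wire

end
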