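/-
S45, block INST (helper108, with helper18).  `ModelStatementK` from the model at every level `k + 1 ≥ 3`
of the concrete tower `Mod.tower K N₀ q x₀` (`TowerStatement` = IND applied to the MOD instance).
-/
import Fermat.Agent.S45.Wire.ModelStatementK
import Fermat.Agent.S45.Mod.Inst

set_option autoImplicit false

noncomputable section

namespace Fermat.Agent.S45.Wire

open Fermat.Agent.Lib.InertiaField Fermat.Agent.S18 ModularCurve Fermat.Agent.S36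
open Fermat.Agent.S45.Mod

theorem eN_eq_embNorm {F₁ F : Type*} [Field F₁] [Field F] (f : F₁ →+* F) : eN f = embNorm f := rfl

theorem exists_modLev {q N : ℕ} (hq : q.Prime) (hN : N ≠ 0) (h2 : q ^ 2 ∣ N) :
    ∃ N₀ k : ℕ, N₀ ≠ 0 ∧ ¬ q ∣ N₀ ∧ 2 ≤ k ∧ N = Mod.lev N₀ q k := by
  obtain ⟨k, N₀, hN₀, rfl⟩ := Nat.exists_eq_pow_mul_and_not_dvd hN q hq.ne_one
  have hN₀0 : N₀ ≠ 0 := fun h => hN₀ (h ▸ dvd_zero q)
  refine ⟨N₀, k, hN₀0, hN₀, ?_, by rw [Mod.lev_eq, mul_comm]⟩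
  by_contra hk
  have hk' : k + 1 ≤ 2 := by omega
  have h3 : q ^ (k + 1) ∣ q ^ k * N₀ := (pow_dvd_pow q hk').trans h2
  rw [pow_succ] at h3
  exact hN₀ (Nat.dvd_of_mul_dvd_mul_left (pow_pos hq.pos k) h3)

/-- **The model at the level `k + 1 ≥ 3` of the concrete tower.** -/
def TowerStatement : Prop :=
  ∀ (K : Type) [Field K] [Algebra ℚ K] [Algebra K Qb] (A₀ : ValuationSubring K)
    (q : ℕ) [NeZero q] (N₀ : ℕ) [NeZero N₀] (k : ℕ), BP.BaseHyp A₀ q → ¬ q ∣ N₀ →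
    (if q = 2 then 9 ∣ N₀ else 4 ∣ N₀) → 2 ≤ k →
    ∃ (x₀ : FK K N₀) (x : (tower K N₀ q x₀).F (k + 1)) (κ : Type) (_ : Finite κ)
      (V : κ → ValuationSubring ((tower K N₀ q x₀).F (k + 1)))
      (ϖ : κ → (tower K N₀ q x₀).F (k + 1)) (E : ℕ)
      (N0 : (tower K N₀ q x₀).F (k + 1) →* (tower K N₀ q x₀).F (k + 1)),
      Fermat.Agent.S45.K.ModelK A₀ q x V ϖ E ((tower K N₀ q x₀).Ea k) ((tower K N₀ q x₀).Eb k)
        ((tower K N₀ q x₀).Na k) ((tower K N₀ q x₀).Nb k) N0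

theorem modelStatementK_of_tower (h : TowerStatement) : ModelStatementK := by
  intro K _ _ _ A₀ q _ N hNZ hb hq2 haux
  have hq : q.Prime := hb.prime
  obtain ⟨N₀, k, hN₀0, hqN₀, hk, hN⟩ := exists_modLev hq (NeZero.ne N) hq2
  have : NeZero N₀ := ⟨hN₀0⟩
  have haux' : if q = 2 then 9 ∣ N₀ else 4 ∣ N₀ := by
    rw [hN, Mod.lev_eq] at haux
    split_ifs at haux ⊢ with h2
    · subst h2
      exact (Nat.Coprime.pow_right k (by decide : Nat.Coprime 9 2)).dvd_of_dvd_mul_right haux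
    · have hc : Nat.Coprime 2 q := (Nat.coprime_primes Nat.prime_two hq).mpr (Ne.symm h2)
      have hc4 : Nat.Coprime 4 q := by
        have := Nat.Coprime.pow_left 2 hc
        simpa using this
      exact (Nat.Coprime.pow_right k hc4).dvd_of_dvd_mul_right haux
  subst hN
  obtain ⟨x₀, x, κ, hκ, V, ϖ, E, N0, hM⟩ := h K A₀ q N₀ k hb hqN₀ haux' hk
  have key : ModelOverK K A₀ q (Mod.lev N₀ q k) := ⟨x, κ, hκ, V, ϖ, E, N0, hM⟩
  convert key

end Fermat.Agent.S45.Wire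

end
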