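/-
S45, block INST (helper108).  Instance facts for the concrete tower over a `S : S36.Mod.Setup K K'`
which are consumed by IND: `Ind.LvlJ` (see also `Ind.lvl0J_tower`, `Ind/PreJTower.lean`) (level `0`, coordinate `j`).
-/
import Fermat.Agent.S45.Mod.BaseInst
import Fermat.Agent.S45.Ind.PreJ
import Fermat.Agent.S36.Inst.Pre
import Fermat.Agent.BAD.LevelQ.Pt.CuspInst

set_option autoImplicit false
set_option linter.unusedSectionVars false

noncomputable section

namespace Fermat.Agent.S45.Wire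

open ModularCurve Fermat.Agent.S24 Fermat.Agent.S18 Fermat.Agent.S36 Fermat.Agent.S36.Mod
  Fermat.Agent.S36.BP Fermat.Agent.S45.Mod IntermediateField

variable {K K' : Type} [Field K] [Field K'] [Algebra ℚ K] [Algebra ℚ K'] [Algebra K Kbar]
  [Algebra K' Kbar] (S : Setup K K')

theorem tower_j_eq_jK (x0 : FK K S.N0) : (tower K S.N0 S.q x0).j = jK K S.N0 :=
  (Fermat.Agent.BAD.LevelQ.Mod.jK_eq_JK K S.N0).symm

/-- **Level `0`, coordinate `j`.** -/
theorem lvl0J (x0 : FK K S.N0) (hB : BaseHyp S.B S.q) :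
    @Ind.LvlJ K ((tower K S.N0 S.q x0).F 0) _ ((tower K S.N0 S.q x0).fld 0)
      ((tower K S.N0 S.q x0).alg 0) S.B S.q (tower K S.N0 S.q x0).j S.V0 where
  base := hB
  vert := by
    rw [tower_j_eq_jK]
    exact Fermat.Agent.S36.Inst.pre_isVert_j S
  coord := by
    rw [tower_j_eq_jK]
    exact Fermat.Agent.S36.Inst.pre_isMCoord_j0 S
  j_unit := (BaseInst.base S x0 hB).j_unit

end Fermat.Agent.S45.Wire

end
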