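/-
S45, block WIRE/INST (helper108).  Reduction of `ModelStatementK` (arbitrary `N` with `q ^ 2 ∣ N`) to
the levels of the tower `lev N₀ q k = N₀ * q * ... * q` (`k` factors, `q ∤ N₀`, `k ≥ 2`), for which
`FK K (lev N₀ q k * q) = FK K (lev N₀ q (k + 1))` holds by definition.
-/
import Fermat.Agent.S45.Wire.ModelStatementK

set_option autoImplicit false

noncomputable section

namespace Fermat.Agent.S45.Wire

open Fermat.Agent.Lib.InertiaField Fermat.Agent.S18 ModularCurve Fermat.Agent.S36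

/-- the level `N₀ * q ^ k`, in the form `N₀ * q * ... * q`. -/
def lev (N₀ q : ℕ) : ℕ → ℕ
  | 0 => N₀
  | k + 1 => lev N₀ q k * q

theorem lev_zero (N₀ q : ℕ) : lev N₀ q 0 = N₀ := rfl

theorem lev_succ (N₀ q k : ℕ) : lev N₀ q (k + 1) = lev N₀ q k * q := rfl

theorem lev_eq (N₀ q k : ℕ) : lev N₀ q k = N₀ * q ^ k := by
  induction k with
  | zero => simp [lev]
  | succ k ih => rw [lev, ih, pow_succ, mul_assoc]

theorem lev_ne_zero {N₀ q : ℕ} (hN₀ : N₀ ≠ 0) (hq : q ≠ 0) (k : ℕ) : lev N₀ q k ≠ 0 := by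
  rw [lev_eq]
  exact mul_ne_zero hN₀ (pow_ne_zero k hq)

instance lev_neZero (N₀ q : ℕ) [NeZero N₀] [NeZero q] (k : ℕ) : NeZero (lev N₀ q k) :=
  ⟨lev_ne_zero (NeZero.ne N₀) (NeZero.ne q) k⟩

theorem exists_lev {q N : ℕ} (hq : q.Prime) (hN : N ≠ 0) (h2 : q ^ 2 ∣ N) :
    ∃ N₀ k : ℕ, N₀ ≠ 0 ∧ ¬ q ∣ N₀ ∧ 2 ≤ k ∧ N₀ ∣ N ∧ N = lev N₀ q k := by
  obtain ⟨k, N₀, hN₀, rfl⟩ := Nat.exists_eq_pow_mul_and_not_dvd hN q hq.ne_one
  have hN₀0 : N₀ ≠ 0 := fun h => hN₀ (h ▸ dvd_zero q)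
  refine ⟨N₀, k, hN₀0, hN₀, ?_, Dvd.intro_left _ rfl, by rw [lev_eq, mul_comm]⟩
  by_contra hk
  have hk' : k + 1 ≤ 2 := by omega
  have h3 : q ^ (k + 1) ∣ q ^ k * N₀ := (pow_dvd_pow q hk').trans h2
  rw [pow_succ] at h3
  exact hN₀ (Nat.dvd_of_mul_dvd_mul_left (pow_pos hq.pos k) h3)

/-- **The modular instance on the tower** : what IND applied to the MOD instance delivers. -/
def LevStatement : Prop :=
  ∀ (K : Type) [Field K] [Algebra ℚ K] [Algebra K Qb] (A₀ : ValuationSubring K)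
    (q : ℕ) [NeZero q] (N₀ : ℕ) [NeZero N₀] (k : ℕ), BP.BaseHyp A₀ q → ¬ q ∣ N₀ →
    (if q = 2 then 9 ∣ N₀ else 4 ∣ N₀) → 2 ≤ k → ModelOverK K A₀ q (lev N₀ q k)

theorem modelStatementK_of_lev (h : LevStatement) : ModelStatementK := by
  intro K _ _ _ A₀ q _ N hNZ hb hq2 haux
  have hq : q.Prime := hb.prime
  obtain ⟨N₀, k, hN₀0, hqN₀, hk, hdvd, hN⟩ := exists_lev hq (NeZero.ne N) hq2
  have : NeZero N₀ := ⟨hN₀0⟩
  have haux' : if q = 2 then 9 ∣ N₀ else 4 ∣ N₀ := by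
    rw [hN, lev_eq] at haux
    split_ifs at haux ⊢ with h2
    · subst h2
      exact (Nat.Coprime.pow_right k (by decide : Nat.Coprime 9 2)).dvd_of_dvd_mul_right haux
    · have hc : Nat.Coprime 2 q := (Nat.coprime_primes Nat.prime_two hq).mpr (Ne.symm h2)
      have hc4 : Nat.Coprime 4 q := by
        have := Nat.Coprime.pow_left 2 hc
        simpa using this
      exact (Nat.Coprime.pow_right k hc4).dvd_of_dvd_mul_right haux
  subst hN
  have := h K A₀ q N₀ k hb hqN₀ haux' hk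
  convert this

end Fermat.Agent.S45.Wire

end
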